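import Fermat.Agent.Root.SummaryHasseMinkowskiNF
import Fermat.Agent.QuadraticHauptsatz.Hauptsatz
import Fermat.Agent.Pfister.Classification
import Mathlib.LinearAlgebra.QuadraticForm.Signature

/-!
# The weak theorem of Hasse and Minkowski over number fields

A class of the Witt group of a number field vanishes if it vanishes in all completions, by the
theorem of Hasse and Minkowski for its anisotropic part; so forms, and symmetric matrices up to
congruence, are classified by their completions.
-/

set_option autoImplicit false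
set_option linter.style.haveILetI false

noncomputable section

universe u

open QuadraticMap NumberField IsDedekindDomain Matrix
open Fermat.Agent.WittRat Fermat.Agent.QuadraticHauptsatz

namespace FA.WeakHasseMinkowski

/-! ### Forms over the reals -/

/-- The number of positive coefficients. -/
def posCount {n : ℕ} (w : Fin n → ℝˣ) : ℕ := (Finset.univ.filter fun i => 0 < (w i : ℝ)).card

/-- A class of rank one is that of a sign. -/
theorem wittClass_real (a : ℝˣ) :
    wittClass ℝ a = if 0 < (a : ℝ) then wittClass ℝ 1 else wittClass ℝ (-1) := by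
  split_ifs with h
  · refine (wittClass ℝ).eq_of_div_sq
      (c := Units.mk0 (Real.sqrt a) (Real.sqrt_pos.2 h).ne') (Units.ext ?_)
    simp [Real.sq_sqrt h.le]
  · have h' : 0 < -(a : ℝ) := neg_pos.2 (lt_of_le_of_ne (not_lt.1 h) a.ne_zero)
    refine (wittClass ℝ).eq_of_div_sq
      (c := Units.mk0 (Real.sqrt (-a)) (Real.sqrt_pos.2 h').ne') (Units.ext ?_)
    simp [Real.sq_sqrt h'.le]

/-- **Sylvester's law**, for the classes of diagonal forms of one rank. -/
theorem cls_real_eq_iff {n : ℕ} (w v : Fin n → ℝˣ) : cls w = cls v ↔ posCount w = posCount v := by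
  constructor
  · intro h
    have h1 := ((equivalent_iff_cls two_ne_zero w v).2 h).sigPos_eq
    rw [QuadraticForm.sigPos_weightedSumSquares, QuadraticForm.sigPos_weightedSumSquares] at h1
    simpa [posCount, Set.ncard_eq_toFinset_card'] using h1
  · intro h
    have e : ∀ u : Fin n → ℝˣ, cls u =
        posCount u • wittClass ℝ 1 + (n - posCount u) • wittClass ℝ (-1) := fun u => by
      rw [cls, Finset.sum_congr rfl fun i _ => wittClass_real (u i), Finset.sum_ite,
        Finset.sum_const, Finset.sum_const, Finset.filter_not, ← Finset.compl_eq_univ_sdiff,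
        Finset.card_compl, Fintype.card_fin, posCount]
    rw [e w, e v, h]

/-! ### The Witt group -/

variable {K : Type u} [Field K] [NumberField K]

omit [NumberField K] in
/-- A nonempty form of class `0` after a base change has a zero there. -/
theorem isotropic_of_mapW_eq_zero {G : Type*} [Field G] (h2 : (2 : G) ≠ 0) (f : K →+* G) {n : ℕ}
    (hn : n ≠ 0) {v : Fin n → Kˣ} (h : mapW f (cls v) = 0) :
    FA.QuadForms.Isotropic fun i => f (v i : K) := by
  rw [mapW_cls] at h
  by_contra hI
  exact hn (eq_zero_of_cls_eq_zero h2 (fun x hx => by_contra fun hx0 => hI ⟨x, hx0, hx⟩) h)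

/-- **The Witt group of a number field embeds in those of its completions.** -/
theorem eq_zero_of_local {z : W K}
    (hfin : ∀ P : HeightOneSpectrum (𝓞 K), mapW (algebraMap K (P.adicCompletion K)) z = 0)
    (hreal : ∀ φ : K →+* ℝ, mapW φ z = 0) : z = 0 := by
  obtain ⟨m, w, rfl⟩ := exists_cls z
  obtain ⟨n, v, -, hv, hcl⟩ := exists_aniso two_ne_zero m w
  rw [← hcl] at hfin hreal ⊢
  rcases eq_or_ne n 0 with rfl | hn
  · simp [cls]
  obtain ⟨x, hx0, hx⟩ := (FA.QuadFormsNF.isotropic_iff_local fun i => (v i : K)).2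
    ⟨fun P => isotropic_of_mapW_eq_zero (FA.QuadFormsNF.two_ne_zero_completion P) _ hn (hfin P),
      fun φ => isotropic_of_mapW_eq_zero two_ne_zero φ hn (hreal φ)⟩
  exact absurd (hv x hx) hx0

/-- **The weak theorem of Hasse and Minkowski**: diagonal forms over a number field are equivalent
iff they are so in all completions. -/
theorem diag_equivalent_iff_local {n : ℕ} (w v : Fin n → Kˣ) :
    Equivalent (diag w) (diag v) ↔
      (∀ P : HeightOneSpectrum (𝓞 K),
        Equivalent (diag fun i => mapUnits (algebraMap K (P.adicCompletion K)) (w i))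
          (diag fun i => mapUnits (algebraMap K (P.adicCompletion K)) (v i))) ∧
      ∀ φ : K →+* ℝ,
        posCount (fun i => mapUnits φ (w i)) = posCount fun i => mapUnits φ (v i) := by
  rw [equivalent_iff_cls two_ne_zero]
  constructor
  · intro h
    refine ⟨fun P => ?_, fun φ => ?_⟩
    · rw [equivalent_iff_cls (FA.QuadFormsNF.two_ne_zero_completion P), ← mapW_cls, ← mapW_cls, h]
    · rw [← cls_real_eq_iff, ← mapW_cls, ← mapW_cls, h]
  · rintro ⟨hfin, hreal⟩
    rw [← sub_eq_zero]
    refine eq_zero_of_local (fun P => ?_) fun φ => ?_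
    · rw [map_sub, mapW_cls, mapW_cls, sub_eq_zero]
      exact (equivalent_iff_cls (FA.QuadFormsNF.two_ne_zero_completion P) _ _).1 (hfin P)
    · rw [map_sub, mapW_cls, mapW_cls, sub_eq_zero]
      exact (cls_real_eq_iff _ _).2 (hreal φ)

/-! ### Congruence -/

section congruence

variable {F : Type*} [Field F] {ι κ μ : Type*} [Fintype ι] [DecidableEq ι] [Fintype κ]
  [DecidableEq κ] [Fintype μ] [DecidableEq μ]

/-- `A` and `B` are congruent, by matrices inverse to each other. -/
def Congruent (A : Matrix ι ι F) (B : Matrix κ κ F) : Prop :=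
  ∃ (P : Matrix ι κ F) (R : Matrix κ ι F), P * R = 1 ∧ R * P = 1 ∧ Pᵀ * A * P = B

theorem Congruent.symm {A : Matrix ι ι F} {B : Matrix κ κ F} (h : Congruent A B) :
    Congruent B A := by
  obtain ⟨P, R, h1, h2, rfl⟩ := h
  refine ⟨R, P, h2, h1, ?_⟩
  calc Rᵀ * (Pᵀ * A * P) * R = (P * R)ᵀ * A * (P * R) := by
        simp only [Matrix.transpose_mul, Matrix.mul_assoc]
    _ = A := by rw [h1, Matrix.transpose_one, Matrix.one_mul, Matrix.mul_one]

theorem Congruent.trans {A : Matrix ι ι F} {B : Matrix κ κ F} {C : Matrix μ μ F}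
    (h : Congruent A B) (h' : Congruent B C) : Congruent A C := by
  obtain ⟨P, R, h1, h2, rfl⟩ := h
  obtain ⟨P', R', h1', h2', rfl⟩ := h'
  refine ⟨P * P', R' * R, ?_, ?_, ?_⟩
  · rw [Matrix.mul_assoc, ← Matrix.mul_assoc P', h1', Matrix.one_mul, h1]
  · rw [Matrix.mul_assoc, ← Matrix.mul_assoc R, h2, Matrix.one_mul, h2']
  · simp only [Matrix.transpose_mul, Matrix.mul_assoc]

theorem Congruent.map {G : Type*} [Field G] (f : F →+* G) {A : Matrix ι ι F} {B : Matrix κ κ F}
    (h : Congruent A B) : Congruent (A.map f) (B.map f) := by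
  obtain ⟨P, R, h1, h2, rfl⟩ := h
  refine ⟨P.map f, R.map f, ?_, ?_, ?_⟩
  · rw [← Matrix.map_mul, h1, Matrix.map_one _ (map_zero f) (map_one f)]
  · rw [← Matrix.map_mul, h2, Matrix.map_one _ (map_zero f) (map_one f)]
  · rw [Matrix.map_mul, Matrix.map_mul, Matrix.transpose_map]

theorem congruent_iff (A B : Matrix ι ι F) :
    Congruent A B ↔ ∃ P : Matrix ι ι F, IsUnit P.det ∧ Pᵀ * A * P = B :=
  ⟨fun ⟨P, _, h1, _, h⟩ => ⟨P, Matrix.isUnit_det_of_right_inverse h1, h⟩,
    fun ⟨P, hP, h⟩ => ⟨P, P⁻¹, Matrix.mul_nonsing_inv P hP, Matrix.nonsing_inv_mul P hP, h⟩⟩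

/-- Equivalence of diagonal forms is congruence of diagonal matrices. -/
theorem congruent_diagonal_iff (h2 : (2 : F) ≠ 0) (w v : ι → F) :
    Congruent (Matrix.diagonal w) (Matrix.diagonal v) ↔
      Equivalent (weightedSumSquares F v) (weightedSumSquares F w) := by
  constructor
  · rintro ⟨P, R, h1, h2, h⟩
    refine ⟨{ toLinearEquiv := Matrix.toLin'OfInv h2 h1, map_app' := fun x => ?_ }⟩
    have e : ∀ (u : ι → F) (y : ι → F),
        weightedSumSquares F u y = y ⬝ᵥ Matrix.diagonal u *ᵥ y := fun u y => by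
      simp only [weightedSumSquares_apply, smul_eq_mul, dotProduct, mulVec_diagonal]
      exact Finset.sum_congr rfl fun i _ => by ring
    rw [e, e, ← h, ← Matrix.mulVec_mulVec, ← Matrix.mulVec_mulVec, dotProduct_transpose_mulVec]
    exact dotProduct_comm _ _
  · rintro ⟨e⟩
    let : Invertible (2 : F) := invertibleOfNonzero h2
    refine ⟨LinearMap.toMatrix' (e.toLinearEquiv : (ι → F) →ₗ[F] ι → F),
      LinearMap.toMatrix' (e.toLinearEquiv.symm : (ι → F) →ₗ[F] ι → F), ?_, ?_, ?_⟩
    · rw [← LinearMap.toMatrix'_comp, LinearEquiv.comp_symm, LinearMap.toMatrix'_id]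
    · rw [← LinearMap.toMatrix'_comp, LinearEquiv.symm_comp, LinearMap.toMatrix'_id]
    · have hc : (weightedSumSquares F w).comp (e.toLinearEquiv : (ι → F) →ₗ[F] ι → F) =
          weightedSumSquares F v := QuadraticMap.ext fun x => e.map_app x
      rw [← FA.Pfister.toMatrix'_weightedSumSquares w, ← QuadraticForm.toMatrix'_comp, hc,
        FA.Pfister.toMatrix'_weightedSumSquares]

end congruence

variable {ι : Type*} [Fintype ι] [DecidableEq ι]

/-- A nonsingular symmetric matrix is congruent to a diagonal of units. -/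
theorem exists_congruent_diagonal {A : Matrix ι ι K} (hA : A.IsSymm) (hdet : A.det ≠ 0) :
    ∃ (d : ℕ) (w : Fin d → Kˣ),
      d = Fintype.card ι ∧ Congruent (Matrix.diagonal fun i => (w i : K)) A := by
  obtain ⟨d, w, P, R, hRP, hPR, hM⟩ := FA.QuadFormsNF.exists_diagonalisation_NF A
  have hA' : FA.QuadFormsNF.symHalf A = A := by
    rw [FA.QuadFormsNF.symHalf, hA.eq, ← two_smul K A, inv_smul_smul₀ two_ne_zero]
  rw [hA'] at hM
  have hD : Congruent (Matrix.diagonal w) A := ⟨P, R, hPR, hRP, hM⟩
  have hu : IsUnit (Matrix.diagonal w).det := by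
    refine Matrix.isUnit_det_of_right_inverse (B := P * A⁻¹ * Pᵀ) ?_
    obtain ⟨R', P', -, h2, hD'⟩ := hD.symm
    have e : Rᵀ * A * R = Matrix.diagonal w := by
      rw [← hM]
      calc Rᵀ * (Pᵀ * Matrix.diagonal w * P) * R
          = (P * R)ᵀ * Matrix.diagonal w * (P * R) := by
            simp only [Matrix.transpose_mul, Matrix.mul_assoc]
        _ = _ := by rw [hPR, Matrix.transpose_one, Matrix.one_mul, Matrix.mul_one]
    calc Matrix.diagonal w * (P * A⁻¹ * Pᵀ) = Rᵀ * A * (R * P) * A⁻¹ * Pᵀ := by
          rw [← e]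
          simp only [Matrix.mul_assoc]
      _ = (P * R)ᵀ := by
          rw [hRP, Matrix.mul_one, Matrix.mul_assoc Rᵀ A,
            Matrix.mul_nonsing_inv A (isUnit_iff_ne_zero.2 hdet), Matrix.mul_one,
            Matrix.transpose_mul]
      _ = 1 := by rw [hPR, Matrix.transpose_one]
  rw [Matrix.det_diagonal, isUnit_iff_ne_zero, Finset.prod_ne_zero_iff] at hu
  refine ⟨d, fun i => Units.mk0 (w i) (hu i (Finset.mem_univ i)), ?_, hD⟩
  have h := congrArg Matrix.trace hPR
  rw [Matrix.trace_mul_comm, hRP, Matrix.trace_one, Matrix.trace_one] at h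
  simpa using (Nat.cast_injective h).symm

omit [NumberField K] in
/-- Congruence after a base change is equivalence of the diagonals. -/
theorem diag_equivalent_of_congruent {G : Type*} [Field G] (h2 : (2 : G) ≠ 0) (f : K →+* G)
    {A B : Matrix ι ι K} {d : ℕ} {w v : Fin d → Kˣ}
    (hw : Congruent (Matrix.diagonal fun i => (w i : K)) A)
    (hv : Congruent (Matrix.diagonal fun i => (v i : K)) B) (h : Congruent (A.map f) (B.map f)) :
    Equivalent (diag fun i => mapUnits f (v i)) (diag fun i => mapUnits f (w i)) := by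
  have := ((hw.map f).trans h).trans (hv.map f).symm
  rw [Matrix.diagonal_map (map_zero f), Matrix.diagonal_map (map_zero f)] at this
  exact (congruent_diagonal_iff h2 _ _).1 this

/-- **Congruence of symmetric matrices over a number field** is decided in the completions. -/
theorem congruent_iff_local {A B : Matrix ι ι K} (hA : A.IsSymm) (hA0 : A.det ≠ 0)
    (hB : B.IsSymm) (hB0 : B.det ≠ 0) :
    Congruent A B ↔
      (∀ P : HeightOneSpectrum (𝓞 K), Congruent (A.map (algebraMap K (P.adicCompletion K)))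
        (B.map (algebraMap K (P.adicCompletion K)))) ∧
      ∀ φ : K →+* ℝ, Congruent (A.map φ) (B.map φ) := by
  refine ⟨fun h => ⟨fun P => h.map _, fun φ => h.map φ⟩, fun ⟨hfin, hreal⟩ => ?_⟩
  obtain ⟨d, w, hd, hw⟩ := exists_congruent_diagonal hA hA0
  obtain ⟨d', v, hd', hv⟩ := exists_congruent_diagonal hB hB0
  obtain rfl : d = d' := hd.trans hd'.symm
  have heq : Equivalent (diag v) (diag w) := (diag_equivalent_iff_local v w).2
    ⟨fun P =>
      diag_equivalent_of_congruent (FA.QuadFormsNF.two_ne_zero_completion P) _ hw hv (hfin P),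
    fun φ =>
      (cls_real_eq_iff _ _).1 ((equivalent_iff_cls two_ne_zero _ _).1
        (diag_equivalent_of_congruent two_ne_zero φ hw hv (hreal φ)))⟩
  exact hw.symm.trans (((congruent_diagonal_iff two_ne_zero _ _).2 heq).trans hv)

end FA.WeakHasseMinkowski

end
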